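/-
S32lib / Comb / Bound  (helper1): **the combination step, part 2 (pure algebra).**

* `exists_pow_bound` : for a finite jointly injective family of `𝒪`-algebra maps `ψ k : T → O₁`
  (`O₁` a finite module over the Noetherian ring `𝒪`) and `x : 𝒪` there is `c` with
  `⨅ k, (ker (ψ k) ⊔ (x^(m+c))) ≤ (x^m)` for all `m` (bounded saturation index of the image of `T`
  in `κ → O₁`);
* `exists_pow_mem_of_finite_quotient` : in a local ring, a power of an element of the maximal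
  ideal lies in any ideal with finite quotient.
-/
import Mathlib
import Fermat.Agent.S32lib.Alg.SatBound

set_option autoImplicit false
set_option linter.unusedSectionVars false

noncomputable section

namespace Fermat.Agent.S32lib

open IsLocalRing

section bound

variable {𝒪 T O₁ κ : Type} [CommRing 𝒪] [IsNoetherianRing 𝒪] [CommRing T] [Algebra 𝒪 T]
  [CommRing O₁] [Algebra 𝒪 O₁] [Module.Finite 𝒪 O₁] [Finite κ]

theorem exists_pow_bound (ψ : κ → T →ₐ[𝒪] O₁) (hψ : ∀ t : T, (∀ k, ψ k t = 0) → t = 0) (x : 𝒪) :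
    ∃ c : ℕ, ∀ m : ℕ,
      (⨅ k, (RingHom.ker (ψ k) ⊔ Ideal.span {algebraMap 𝒪 T x ^ (m + c)})) ≤
        Ideal.span {algebraMap 𝒪 T x ^ m} := by
  classical
  have : Module.Finite 𝒪 (κ → O₁) := Module.Finite.pi
  have : IsNoetherian 𝒪 (κ → O₁) := isNoetherian_of_isNoetherianRing_of_finite 𝒪 (κ → O₁)
  let Ψ : T →ₗ[𝒪] (κ → O₁) := LinearMap.pi fun k => (ψ k).toLinearMap
  have hΨ : ∀ t k, Ψ t k = ψ k t := fun t k => rfl
  obtain ⟨c, hc⟩ := exists_saturation_bound (LinearMap.range Ψ) x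
  refine ⟨c, fun m t ht => ?_⟩
  rw [Ideal.mem_iInf] at ht
  have hex : ∀ k, ∃ s : T, ψ k t = x ^ (m + c) • ψ k s := by
    intro k
    obtain ⟨a, ha, b, hb, hab⟩ := Submodule.mem_sup.mp (ht k)
    obtain ⟨s, hs⟩ := Ideal.mem_span_singleton'.mp hb
    refine ⟨s, ?_⟩
    rw [← hab, map_add, (RingHom.mem_ker).mp ha, zero_add, ← hs, map_mul, map_pow,
      AlgHom.commutes, Algebra.smul_def, map_pow, mul_comm]
  choose s hs using hex
  let y : κ → O₁ := fun k => ψ k (s k)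
  have h1 : x ^ (m + c) • y = Ψ t := by
    funext k
    rw [Pi.smul_apply, hΨ, hs k]
  have h2 : x ^ c • y ∈ LinearMap.range Ψ := hc y (m + c) (by rw [h1]; exact ⟨t, rfl⟩)
  obtain ⟨t', ht'⟩ := h2
  have h3 : Ψ t = Ψ (x ^ m • t') := by
    rw [map_smul, ht', ← h1, pow_add, mul_smul]
  have h4 : t = x ^ m • t' := by
    have h5 : Ψ (t - x ^ m • t') = 0 := by rw [map_sub, h3, sub_self]
    have h6 := hψ (t - x ^ m • t') (fun k => by rw [← hΨ, h5]; rfl)
    exact sub_eq_zero.mp h6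
  rw [h4, Algebra.smul_def, map_pow]
  exact Ideal.mul_mem_right _ _ (Ideal.mem_span_singleton_self _)

end bound

theorem exists_pow_mem_of_finite_quotient {T : Type} [CommRing T] [IsLocalRing T] (x : T)
    (hx : x ∈ maximalIdeal T) (I : Ideal T) [Finite (T ⧸ I)] : ∃ m : ℕ, x ^ m ∈ I := by
  obtain ⟨a, b, hab, h⟩ :=
    Finite.exists_ne_map_eq_of_infinite (fun n : ℕ => (Ideal.Quotient.mk I (x ^ n)))
  wlog hlt : a < b generalizing a b
  · exact this b a hab.symm h.symm (lt_of_le_of_ne (not_lt.mp hlt) hab.symm)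
  obtain ⟨d, rfl⟩ := Nat.exists_eq_add_of_lt hlt
  have h1 : x ^ a - x ^ (a + d + 1) ∈ I := by
    rw [← Ideal.Quotient.eq]
    exact h
  have h2 : x ^ (d + 1) ∈ maximalIdeal T :=
    Ideal.pow_mem_of_mem _ hx _ (Nat.succ_pos d)
  have h3 : IsUnit (1 - x ^ (d + 1)) :=
    IsLocalRing.isUnit_one_sub_self_of_mem_nonunits _ ((IsLocalRing.mem_maximalIdeal _).mp h2)
  obtain ⟨u, hu⟩ := h3
  refine ⟨a, ?_⟩
  have h4 : x ^ a = (x ^ a - x ^ (a + d + 1)) * ↑u⁻¹ := by
    have : x ^ a - x ^ (a + d + 1) = x ^ a * ↑u := by rw [hu]; ring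
    rw [this, mul_assoc, Units.mul_inv, mul_one]
  rw [h4]
  exact Ideal.mul_mem_right _ _ h1

end Fermat.Agent.S32lib
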