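/-
S32lib / Comb / Level  (helper1): **the combination step, part 1.**

For `ρ : GaloisRepAdic T`, `FlatLevel p ρ I` says that the finite level `ρ.V ⧸ I • ⊤` (with the
action `ρ.levelAction I`) has a finite flat model over `ℤ_(p)`.
* `FlatLevel.mono`  : it passes to larger ideals (quotients);
* `FlatLevel.inf`   : it passes to intersections of two ideals (`V` is free, so
  `(I₁ ⊓ I₂) V = I₁ V ∩ I₂ V` and `V/(I₁ ⊓ I₂)V ↪ V/I₁V × V/I₂V`);
* `FlatLevel.iInf`  : finite infima.
-/
import Mathlib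
import Fermat.Prelude.Def_GaloisRep_Flat
import Fermat.Agent.S32lib.FM.SubQuot
import Fermat.Agent.S32lib.FM.Prod
import Fermat.Agent.S32lib.Alg.SatBound

set_option autoImplicit false
set_option linter.unusedSectionVars false

noncomputable section

namespace Fermat.Agent.S32lib

variable {T : Type} [CommRing T] [IsLocalRing T]

/-- the finite level `V / I V` of `ρ` has a finite flat model over `ℤ_(p)` -/
def FlatLevel (p : ℕ) (ρ : GaloisRepAdic T) (I : Ideal T) : Prop :=
  HasFlatModel p (ρ.V ⧸ (I • (⊤ : Submodule T ρ.V))) (fun σ x => ρ.levelAction I σ x)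

namespace Comb

variable {p : ℕ} (ρ : GaloisRepAdic T)

theorem levelAction_mk (I : Ideal T) (σ : GQ) (v : ρ.V) :
    ρ.levelAction I σ (Submodule.Quotient.mk v) = Submodule.Quotient.mk (ρ.ρ σ v) := rfl

/-- the transition map `V / I V → V / I' V` for `I ≤ I'` -/
def trans {I I' : Ideal T} (h : I ≤ I') :
    (ρ.V ⧸ (I • (⊤ : Submodule T ρ.V))) →ₗ[T] (ρ.V ⧸ (I' • (⊤ : Submodule T ρ.V))) :=
  Submodule.mapQ _ _ LinearMap.id (by
    rw [Submodule.comap_id]
    exact Submodule.smul_mono h le_rfl)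

theorem trans_mk {I I' : Ideal T} (h : I ≤ I') (v : ρ.V) :
    trans ρ h (Submodule.Quotient.mk v) = Submodule.Quotient.mk v := rfl

theorem trans_surjective {I I' : Ideal T} (h : I ≤ I') : Function.Surjective (trans ρ h) := by
  intro x
  obtain ⟨v, rfl⟩ := Submodule.Quotient.mk_surjective _ x
  exact ⟨Submodule.Quotient.mk v, rfl⟩

theorem trans_levelAction {I I' : Ideal T} (h : I ≤ I') (σ : GQ)
    (x : ρ.V ⧸ (I • (⊤ : Submodule T ρ.V))) :
    trans ρ h (ρ.levelAction I σ x) = ρ.levelAction I' σ (trans ρ h x) := by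
  obtain ⟨v, rfl⟩ := Submodule.Quotient.mk_surjective _ x
  rfl

end Comb

open Comb

variable {p : ℕ} [Fact p.Prime] {ρ : GaloisRepAdic T}

/-- **monotonicity** -/
theorem FlatLevel.mono {I I' : Ideal T} (h : I ≤ I') (hI : FlatLevel p ρ I) :
    FlatLevel p ρ I' :=
  HasFlatModel.of_surjective hI (trans ρ h).toAddMonoidHom (trans_surjective ρ h)
    (fun σ x => trans_levelAction ρ h σ x)

/-- **binary intersections** -/
theorem FlatLevel.inf {I₁ I₂ : Ideal T} (h₁ : FlatLevel p ρ I₁) (h₂ : FlatLevel p ρ I₂) :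
    FlatLevel p ρ (I₁ ⊓ I₂) := by
  have hprod := HasFlatModel.prod h₁ h₂
  let ι : (ρ.V ⧸ ((I₁ ⊓ I₂) • (⊤ : Submodule T ρ.V))) →+
      (ρ.V ⧸ (I₁ • (⊤ : Submodule T ρ.V))) × (ρ.V ⧸ (I₂ • (⊤ : Submodule T ρ.V))) :=
    (trans ρ (inf_le_left : I₁ ⊓ I₂ ≤ I₁)).toAddMonoidHom.prod
      (trans ρ (inf_le_right : I₁ ⊓ I₂ ≤ I₂)).toAddMonoidHom
  refine HasFlatModel.of_injective hprod ι ?_ ?_
  · rw [injective_iff_map_eq_zero]
    intro x hx
    obtain ⟨v, rfl⟩ := Submodule.Quotient.mk_surjective _ x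
    have h1 : (Submodule.Quotient.mk v : ρ.V ⧸ (I₁ • (⊤ : Submodule T ρ.V))) = 0 :=
      congrArg Prod.fst hx
    have h2 : (Submodule.Quotient.mk v : ρ.V ⧸ (I₂ • (⊤ : Submodule T ρ.V))) = 0 :=
      congrArg Prod.snd hx
    rw [Submodule.Quotient.mk_eq_zero] at h1 h2 ⊢
    rw [← smul_top_inf_smul_top (Module.Free.chooseBasis T ρ.V)]
    exact ⟨h1, h2⟩
  · intro σ x
    obtain ⟨v, rfl⟩ := Submodule.Quotient.mk_surjective _ x
    rfl

/-- the unit ideal -/
theorem FlatLevel.top : FlatLevel p ρ ⊤ := by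
  have : Subsingleton (ρ.V ⧸ ((⊤ : Ideal T) • (⊤ : Submodule T ρ.V))) := by
    rw [Submodule.top_smul]
    exact Submodule.Quotient.subsingleton_iff.mpr rfl
  exact HasFlatModel.of_subsingleton _

/-- **finite infima** -/
theorem FlatLevel.finset_inf {κ : Type*} (s : Finset κ) (I : κ → Ideal T)
    (h : ∀ k ∈ s, FlatLevel p ρ (I k)) : FlatLevel p ρ (s.inf I) := by
  classical
  induction s using Finset.induction_on with
  | empty => rw [Finset.inf_empty]; exact FlatLevel.top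
  | insert a s _ ih =>
    rw [Finset.inf_insert]
    exact FlatLevel.inf (h a (Finset.mem_insert_self a s))
      (ih fun k hk => h k (Finset.mem_insert_of_mem hk))

theorem FlatLevel.iInf {κ : Type*} [Finite κ] (I : κ → Ideal T)
    (h : ∀ k, FlatLevel p ρ (I k)) : FlatLevel p ρ (⨅ k, I k) := by
  classical
  have := Fintype.ofFinite κ
  rw [← Finset.inf_univ_eq_iInf]
  exact FlatLevel.finset_inf Finset.univ I fun k _ => h k

end Fermat.Agent.S32lib
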