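/-
S32lib / Comb / Main  (helper1): **the combination step, assembly.**

* `flatLevel_of_pieces` : if the levels `ker ψ_k + (p^m)` of `ρ` are flat for a finite jointly
  injective family of characters `ψ_k : T → O₁` and all `m`, then every finite level is flat;
* `isFlatAt_of_flatLevel`, `finite_residueField_of_surjective` : the repackaging into the Prelude's
  `GaloisRepAdic.IsFlatAt`.
-/
import Mathlib
import Fermat.Agent.S32lib.Comb.Level
import Fermat.Agent.S32lib.Comb.Bound

set_option autoImplicit false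
set_option linter.unusedSectionVars false

noncomputable section

namespace Fermat.Agent.S32lib

open IsLocalRing

section assembly

variable {𝒪 T O₁ κ : Type} [CommRing 𝒪] [IsNoetherianRing 𝒪] [CommRing T] [IsLocalRing T]
  [Algebra 𝒪 T] [CommRing O₁] [Algebra 𝒪 O₁] [Module.Finite 𝒪 O₁] [Finite κ]
  {p : ℕ} [Fact p.Prime] {ρ : GaloisRepAdic T}

theorem flatLevel_of_pieces (hpT : (p : T) ∈ maximalIdeal T)
    (ψ : κ → T →ₐ[𝒪] O₁) (hψ : ∀ t : T, (∀ k, ψ k t = 0) → t = 0)
    (h : ∀ (k : κ) (m : ℕ), FlatLevel p ρ (RingHom.ker (ψ k) ⊔ Ideal.span {(p : T) ^ m}))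
    (I : Ideal T) (hI : Finite (T ⧸ I)) : FlatLevel p ρ I := by
  obtain ⟨c, hc⟩ := exists_pow_bound ψ hψ ((p : ℕ) : 𝒪)
  obtain ⟨m, hm⟩ := exists_pow_mem_of_finite_quotient (p : T) hpT I
  have hcast : algebraMap 𝒪 T ((p : ℕ) : 𝒪) = (p : T) := map_natCast _ _
  have h1 : FlatLevel p ρ (⨅ k, (RingHom.ker (ψ k) ⊔ Ideal.span {(p : T) ^ (m + c)})) :=
    FlatLevel.iInf _ fun k => h k (m + c)
  have h2 : (⨅ k, (RingHom.ker (ψ k) ⊔ Ideal.span {(p : T) ^ (m + c)})) ≤ I := by
    have := hc m
    rw [hcast] at this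
    exact this.trans ((Ideal.span_singleton_le_iff_mem I).mpr hm)
  exact FlatLevel.mono h2 h1

theorem isFlatAt_of_flatLevel (hfin : Finite (ResidueField T))
    (h : ∀ I : Ideal T, Finite (T ⧸ I) → FlatLevel p ρ I) : ρ.IsFlatAt p :=
  ⟨hfin, fun I hI => h I hI⟩

theorem finite_residueField_of_surjective [IsLocalRing 𝒪] [Finite (ResidueField 𝒪)]
    (h : Function.Surjective (IsLocalRing.residue T ∘ algebraMap 𝒪 T)) :
    Finite (ResidueField T) := by
  let f : 𝒪 →+* ResidueField T := (IsLocalRing.residue T).comp (algebraMap 𝒪 T)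
  have hf : Function.Surjective f := h
  have hker : RingHom.ker f = maximalIdeal 𝒪 :=
    IsLocalRing.eq_maximalIdeal (RingHom.ker_isMaximal_of_surjective f hf)
  let g : ResidueField 𝒪 →+* ResidueField T :=
    Ideal.Quotient.lift (maximalIdeal 𝒪) f (fun a ha => by
      rw [← hker] at ha
      exact (RingHom.mem_ker).mp ha)
  have hg : Function.Surjective g := by
    intro y
    obtain ⟨a, rfl⟩ := hf y
    exact ⟨Ideal.Quotient.mk _ a, rfl⟩
  exact Finite.of_surjective g hg

end assembly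

end Fermat.Agent.S32lib
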